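/-
Programme S33 (ruling R1 = report 1278), brick N2-toric, NLevel half (helper65):
**THE BINDER `toric_inf` OF `S33P.Inst3.localGeomTate_of_fields` ON THE UNION OVER THE LEVELS.**

Twins of `T1B/Toric50/UnionFields.lean` + `T1B/Toric50/UnionGlue.lean` (helper50) for an ARBITRARY
exponent `m` (in the application `m = p ^ n`) instead of the prime `p`.  The family of tower inputs
`I : ∀ E, TowerInput c0 D hρ0 hρ1 O_E (G E) q r (Bt E)` is the one of T1B, UNCHANGED (its own exponent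
`q` only enters the `χ`-statements); so the toric map `ιT := GalInput65.ιTop I F hO hI` is the same as in
`Local66.Glue.localGeom_of_fields`, and it is ONE map for all `n`, as `LocalGeomTate` requires.
Nothing new is proved about the geometry: `Package2.K_eq_range` and `toricPoint_injective` are
exponent-free (this is helper84's `S33P/Toric84/Pow.lean`; the two abstract steps are repeated here
so that this file does not import the `Toric50/Junction` closure).

* `exists_ιΩ_eq_any`            : twin of `Union81.exists_ιΩ_eq` (= `Toric84.exists_ιΩ_eq_pow`);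
* `exists_ιTop_eq_of_level_pow` : twin of `UnionFields.exists_ιTop_eq_of_level`;
* `exists_ιTop_eq_of_cmp_pow`   : twin of `UnionFields.exists_ιTop_eq_of_cmp`;
* `toric_J1top_pow`             : twin of `UnionGlue.toric_J1top` (abstract bridge `j : T →+ Atop`);
* `toric_inf_J1top`             : the binder `toric_inf` of `Inst3.localGeomTate_of_fields`, verbatim.
-/
import Mathlib
import Fermat.Agent.T1B.Toric50.UnionGlue
import Fermat.Agent.S33P.Geo99.Tate

set_option autoImplicit false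
set_option linter.unusedSectionVars false
set_option linter.unusedVariables false
set_option linter.style.haveILetI false
set_option linter.overlappingInstances false
set_option synthInstance.maxHeartbeats 400000
set_option maxHeartbeats 1000000

noncomputable section

namespace Fermat.Agent.S33P.Toric65

open Fermat.Agent.TW.B5.Iface Fermat.Agent.RED.Interface4 Fermat.Agent.T1.HubInst98
open Fermat.Agent.T1.IntSub47 Fermat.Agent.Jac Fermat.Agent.T1.RedIface75
open Fermat.Agent.T1B.Local66.LocalBase Fermat.Agent.T1B.Local66.Union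
open Fermat.Agent.T1B.Local66.Objects
open Fermat.Agent.T1B.Plumb66
open Fermat.Agent.T1B.Bridge54.IpAction Fermat.Agent.T1B.Bridge54.IpInst
open Fermat.Agent.T1B.Bridge54.IpUnion
open Fermat.Agent.T1.CechFormal70 Fermat.Agent.T1B.Toric11 Fermat.Agent.T1B.ToricGal65
open Fermat.Agent.T1B.Union81 Fermat.Agent.T1B.GalInput65 Fermat.Agent.T1B.Toric50.Assemble
open Fermat.Agent.T1B.Toric50 Fermat.Agent.T1B.Toric50.UnionFields
open Fermat.Agent.S33P.Geo99
open ModularCurve

/-! ### The abstract steps, any exponent -/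

section Abstract

universe uG uA uT uJ uB uTn

variable {G : Type uG} [Group G] {q : ℕ} (P : Package2.{uG, uA, uT, uJ, uB, uTn} G q)

/-- every `m`-torsion point of the formal kernel is the toric point of an `m`-torsion element
(any exponent `m`; `= Toric84.package2_exists_toricPoint_of_pow`). -/
theorem package2_exists_toricPoint_any (m : ℕ) (y : P.A) (hy : y ∈ P.K) (hym : y ^ m = 1) :
    ∃ w : P.Tinf, w ^ m = 1 ∧ P.toricPoint w = y := by
  have hmem : y ∈ P.toricPoint.range := by rw [← P.K_eq_range]; exact hy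
  obtain ⟨w, rfl⟩ := hmem
  refine ⟨w, ?_, rfl⟩
  apply P.toricPoint_injective
  rw [map_pow, hym, map_one]

end Abstract

section Union

open Fermat.Agent.Jac.BaseChange75
open scoped Fermat.Agent.Jac.BaseChange75

universe u v uG

variable {W : Type u} [CommRing W] {Ω : Type u} [CommRing Ω] [Algebra W Ω]
  {Λ : Type v} [Preorder Λ]
  {B0 B1 B01 : Type u} [CommRing B0] [CommRing B1] [CommRing B01]
  [Algebra W B0] [Algebra W B1] [Algebra W B01] [Algebra B0 B01] [Algebra B1 B01]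
  [IsScalarTower W B0 B01] [IsScalarTower W B1 B01]
  {c0 : TwoChart W B0 B1 B01} {g : ℕ} {D : CechData W B0 B1 B01 g}
  {hρ0 : ∀ x, D.ρ0 x = algebraMap B0 B01 x} {hρ1 : ∀ x, D.ρ1 x = algebraMap B1 B01 x}
  [IsDirected Λ (· ≤ ·)] [Nonempty Λ]
  (𝓛 : LevelFamily W Ω Λ) {U : Subgroup Ωˣ} (hU : UnitsFamily 𝓛 U)
  {G : Λ → Type uG} [∀ L, Group (G L)] {q r : ℕ} {Bt : Λ → ℕ → Type u}
  [∀ L n, CommGroup (Bt L n)]
  [∀ L, MulDistribMulAction (G L) (J1 c0 (𝓛.O L))]
  [∀ L n, MulDistribMulAction (G L) (Jn D (IsLocalRing.maximalIdeal (𝓛.O L)) n)]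
  [∀ L n, MulDistribMulAction (G L) (Tn r (IsLocalRing.maximalIdeal (𝓛.O L)) n)]
  [∀ L, MulDistribMulAction (G L) (Tinf r (IsLocalRing.maximalIdeal (𝓛.O L)))]
  (I : ∀ L, TowerInput c0 D hρ0 hρ1 (𝓛.O L) (G L) q r (Bt L))
  {good : ∀ (O : Type u) [CommRing O] [IsDomain O] [IsDiscreteValuationRing O] [Algebra W O], Prop}
  (F : TorFam r D good) (hO : ∀ L, good (𝓛.O L))
  (hI : ∀ L n, (I L).ι n = F.ι (𝓛.O L) (hO L) n)

/-- **The toric description on the union, any exponent** (twin of `Union81.exists_ιΩ_eq`;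
`= Toric84.exists_ιΩ_eq_pow`). -/
theorem exists_ιΩ_eq_any (m : ℕ) (L : Λ) (hinj : Function.Injective (iΩ (c0 := c0) 𝓛 L))
    (y : J1 c0 (𝓛.O L)) (hy : ∀ n, (I L).β n (uJ c0 D hρ0 hρ1 (𝓛.O L) n y) = 1)
    (hm : (mapAlg c0 (𝓛.toΩ L) (y : PicX c0 (𝓛.O L))) ^ m = 1) :
    ∃ z : Fin r → U, (∀ k, z k ^ m = 1) ∧
      ιΩ 𝓛 hU I F hO hI z = mapAlg c0 (𝓛.toΩ L) (y : PicX c0 (𝓛.O L)) :=
  (unionData 𝓛 hU I F hO hI).exists_ιT_eq m (fun L => (I L).package2.K)
    (fun L y hy hym => package2_exists_toricPoint_any (I L).package2 m y hy hym)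
    L hinj y ((I L).mem_K.2 hy) hm

end Union

/-! ### On the normal levels -/

variable {p : ℕ} [Fact p.Prime] {K : IntermediateField ℚ Qbar}

attribute [local instance] algWKbar

variable {B0 B1 B01 : Type} [CommRing B0] [CommRing B1] [CommRing B01]
  [Algebra (Wb p K) B0] [Algebra (Wb p K) B1] [Algebra (Wb p K) B01] [Algebra B0 B01]
  [Algebra B1 B01] [IsScalarTower (Wb p K) B0 B01] [IsScalarTower (Wb p K) B1 B01]
  {c0 : TwoChart (Wb p K) B0 B1 B01}
  [FiniteDimensional ℚ K] {g : ℕ} {D : CechData (Wb p K) B0 B1 B01 g}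
  {hρ0 : ∀ x, D.ρ0 x = algebraMap B0 B01 x} {hρ1 : ∀ x, D.ρ1 x = algebraMap B1 B01 x}
  {G : NLevel p K → Type} [∀ L, Group (G L)] {q r : ℕ} {Bt : NLevel p K → ℕ → Type}
  [∀ L n, CommGroup (Bt L n)]
  [∀ L, MulDistribMulAction (G L) (J1 c0 ((levelFamilyN p K).O L))]
  [∀ L n, MulDistribMulAction (G L)
    (Jn D (IsLocalRing.maximalIdeal ((levelFamilyN p K).O L)) n)]
  [∀ L n, MulDistribMulAction (G L)
    (Tn r (IsLocalRing.maximalIdeal ((levelFamilyN p K).O L)) n)]
  [∀ L, MulDistribMulAction (G L) (Tinf r (IsLocalRing.maximalIdeal ((levelFamilyN p K).O L)))]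
  (I : ∀ L, TowerInput c0 D hρ0 hρ1 ((levelFamilyN p K).O L) (G L) q r (Bt L))
  {good : ∀ (O : Type) [CommRing O] [IsDomain O] [IsDiscreteValuationRing O]
    [Algebra (Wb p K) O], Prop}
  (F : TorFam r D good) (hO : ∀ L, good ((levelFamilyN p K).O L))
  (hI : ∀ L n, (I L).ι n = F.ι ((levelFamilyN p K).O L) (hO L) n)

/-- **`toric`, level form, any exponent** (twin of `UnionFields.exists_ιTop_eq_of_level`): a class
`a ∈ A` killed by `m` which is the image of a class `y ∈ J̃¹(O_E)` of the formal kernel of `β`, at a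
level where `J̃¹(O_E) → Pic X_{ℚ̄_p}` is injective, is `ιTop z` for a family `z` of `m`-th roots of
unity. -/
theorem exists_ιTop_eq_of_level_pow (m : ℕ) (a : Atop p K c0) (hma : m • a = 0) (E : NLevel p K)
    (hinj : Function.Injective fun y : J1 c0 ((levelFamilyN p K).O E) =>
      bcO c0 E (y : PicX c0 ((levelFamilyN p K).O E)))
    (y : J1 c0 ((levelFamilyN p K).O E))
    (hya : Additive.ofMul (bcO c0 E (y : PicX c0 ((levelFamilyN p K).O E))) = a)
    (hy : ∀ n, (I E).β n (uJ c0 D hρ0 hρ1 ((levelFamilyN p K).O E) n y) = 1) :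
    ∃ z : Fin r → ↥(OneUnits.oneUnits p), (∀ e, z e ^ m = 1) ∧ ιTop I F hO hI z = a := by
  have hinj' : Function.Injective (iΩ (c0 := c0) (levelFamilyN p K) E) := by
    intro y1 y2 h
    apply hinj
    show bcO c0 E (y1 : PicX c0 ((levelFamilyN p K).O E)) =
      bcO c0 E (y2 : PicX c0 ((levelFamilyN p K).O E))
    rw [bcO_eq_mapAlg]
    exact h
  have hm : (mapAlg c0 ((levelFamilyN p K).toΩ E)
      (y : PicX c0 ((levelFamilyN p K).O E))) ^ m = 1 := by
    rw [← bcO_eq_mapAlg]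
    have h1 : m • (Additive.ofMul (bcO c0 E (y : PicX c0 ((levelFamilyN p K).O E))) :
        Atop p K c0) = 0 := by
      rw [hya]; exact hma
    exact h1
  obtain ⟨z, hz, hzy⟩ :=
    exists_ιΩ_eq_any (levelFamilyN p K) (unitsFamilyN p K) I F hO hI m E hinj' y hy hm
  refine ⟨z, hz, ?_⟩
  unfold ιTop
  rw [hzy, ← bcO_eq_mapAlg]
  exact hya

/-- **`toric`, any exponent**: the same, the level and the class being provided by CMP (twin of
`UnionFields.exists_ιTop_eq_of_cmp`). -/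
theorem exists_ιTop_eq_of_cmp_pow (m : ℕ) (a : Atop p K c0) (hma : m • a = 0)
    (hinjE : ∀ E : NLevel p K, Function.Injective (bcE c0 E))
    (hext : ∀ E : NLevel p K, ∀ x ∈ J1Fam c0 E, bcOE c0 E x = 1 → x = 1)
    (hcmp : ∃ (E : NLevel p K) (y : J1 c0 ((levelFamilyN p K).O E)),
      Additive.ofMul (bcO c0 E (y : PicX c0 ((levelFamilyN p K).O E))) = a ∧
        ∀ n, (I E).β n (uJ c0 D hρ0 hρ1 ((levelFamilyN p K).O E) n y) = 1) :
    ∃ z : Fin r → ↥(OneUnits.oneUnits p), (∀ e, z e ^ m = 1) ∧ ιTop I F hO hI z = a := by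
  obtain ⟨E, y, hya, hy⟩ := hcmp
  exact exists_ιTop_eq_of_level_pow I F hO hI m a hma E
    (injective_bcO_J1 E (hinjE E) (hext E)) y hya hy

variable (P00 : ∀ E : NLevel p K, Subgroup (PicO c0 E)) (hPP : Compatible c0 P00)

/-- **The binder `toric` at an arbitrary exponent `m`**, for an abstract bridge `j : T →+ Atop p K c0`
(twin of `UnionGlue.toric_J1top`, SAME level-wise CMP hypothesis `hcmp`): an `m`-torsion element `x`
of `T` with `ker x` and `j x ∈ J1top` is `ιTop z` for a family `z` of `m`-th roots of unity. -/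
theorem toric_J1top_pow {T : Type*} [AddCommGroup T] (j : T →+ Atop p K c0) (ker : T → Prop)
    (hinjE : ∀ E : NLevel p K, Function.Injective (bcE c0 E))
    (hext : ∀ E : NLevel p K, ∀ x ∈ J1Fam c0 E, bcOE c0 E x = 1 → x = 1)
    (hcmp : ∀ x : T, ker x → ∀ (E : NLevel p K) (y : J1 c0 ((levelFamilyN p K).O E)),
      Additive.ofMul (bcO c0 E (y : PicX c0 ((levelFamilyN p K).O E))) = j x →
        ∀ n, (I E).β n (uJ c0 D hρ0 hρ1 ((levelFamilyN p K).O E) n y) = 1)
    (m : ℕ) (x : T) (hmx : m • x = 0) (hx : ker x) (hxJ : j x ∈ J1top c0 P00 hPP) :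
    ∃ z : Fin r → ↥(OneUnits.oneUnits p), (∀ e, z e ^ m = 1) ∧ ιTop I F hO hI z = j x := by
  obtain ⟨E, a, ha, hae⟩ := (mem_J1top c0 P00 hPP).1 hxJ
  have ha1 : a ∈ J1Fam c0 E := (Subgroup.mem_inf.1 ha).2
  let y : J1 c0 ((levelFamilyN p K).O E) := ⟨a, ha1⟩
  have hya : Additive.ofMul (bcO c0 E (y : PicX c0 ((levelFamilyN p K).O E))) = j x := hae
  have hma : m • j x = 0 := by rw [← map_nsmul, hmx, map_zero]
  exact exists_ιTop_eq_of_level_pow I F hO hI m (j x) hma E
    (injective_bcO_J1 E (hinjE E) (hext E)) y hya (hcmp x hx E y hya)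

/-- **The binder `toric_inf` of `S33P.Inst3.localGeomTate_of_fields`, verbatim**, with
`E := Fin r`, `ιT := ιTop I F hO hI`, from the level-wise statement of CMP on the `p`-power torsion. -/
theorem toric_inf_J1top {N M' : ℕ} [NeZero N] [NeZero M'] {π₁ π₂ : JZero N →+ JZero M'}
    (j : ↥(torsPinf N p) →+ Atop p K c0)
    (hinjE : ∀ E : NLevel p K, Function.Injective (bcE c0 E))
    (hext : ∀ E : NLevel p K, ∀ x ∈ J1Fam c0 E, bcOE c0 E x = 1 → x = 1)
    (hcmp : ∀ x : ↥(torsPinf N p), π₁ (x : JZero N) = 0 ∧ π₂ (x : JZero N) = 0 →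
      ∀ (E : NLevel p K) (y : J1 c0 ((levelFamilyN p K).O E)),
      Additive.ofMul (bcO c0 E (y : PicX c0 ((levelFamilyN p K).O E))) = j x →
        ∀ n, (I E).β n (uJ c0 D hρ0 hρ1 ((levelFamilyN p K).O E) n y) = 1) :
    ∀ (x : JZero N) (hx : x ∈ torsPinf N p) (n : ℕ), (p ^ n) • x = 0 →
      π₁ x = 0 → π₂ x = 0 → j ⟨x, hx⟩ ∈ J1top c0 P00 hPP →
      ∃ z : Fin r → ↥(OneUnits.oneUnits p), (∀ e, z e ^ (p ^ n) = 1) ∧
        ιTop I F hO hI z = j ⟨x, hx⟩ := by
  intro x hx n hn h1 h2 hxJ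
  exact toric_J1top_pow I F hO hI P00 hPP j
    (fun x : ↥(torsPinf N p) => π₁ (x : JZero N) = 0 ∧ π₂ (x : JZero N) = 0) hinjE hext hcmp
    (p ^ n) ⟨x, hx⟩ (Subtype.ext hn) ⟨h1, h2⟩ hxJ

end Fermat.Agent.S33P.Toric65
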