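/-
Programme S33 (ruling R1 = report 1278), brick N2-toric / N2-glue seam (helper65):
**`LocalGeomTate` FROM THE J-BRIDGE, THE NODE STEP AND THE TORIC FAMILY OF T1B.**

`localGeomTate_of_toric` = helper3's `Inst3.localGeomTate_of_fields` with the TORIC block filled in:
`E := Fin r`, `ιT := GalInput65.ιTop I F hO hI` (`ιTop_mul`, `ιTop_smul`), `toric_inf := toric_inf_J1top`.
What remains as hypotheses: the J-bridge on the `p`-power torsion (`j`, `j_inj`, `j_res`, `j_Pt`), NODE
(`sub_mem_J0`), the family `I` of tower inputs of T1B with its natural toric family `F` (`hO`, `hI`),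
and CMP on the `p`-power torsion (`hinjE`, `hext`, `hcmp`).  This is a kernel-checked test that the
binders of the cells fit together.
-/
import Mathlib
import Fermat.Agent.S33P.Inst3.Glue
import Fermat.Agent.S33P.Toric65.UnionPow

set_option autoImplicit false
set_option linter.unusedSectionVars false
set_option linter.unusedVariables false
set_option linter.style.haveILetI false
set_option linter.overlappingInstances false
set_option synthInstance.maxHeartbeats 400000
set_option maxHeartbeats 1000000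

noncomputable section

namespace Fermat.Agent.S33P.Toric65

open Fermat.Agent.TW.B5.Iface Fermat.Agent.RED.Interface4 Fermat.Agent.T1.HubInst98
open Fermat.Agent.T1.IntSub47 Fermat.Agent.Jac Fermat.Agent.T1.RedIface75
open Fermat.Agent.T1B.Local66.LocalBase Fermat.Agent.T1B.Local66.Union
open Fermat.Agent.T1B.Local66.Objects Fermat.Agent.T1B.Local66.Assembly
open Fermat.Agent.T1B.Plumb66.Inertia (Ip mem_Ip)
open Fermat.Agent.T1B.Plumb66.OneUnits
open Fermat.Agent.T1B.Bridge54.IpAction Fermat.Agent.T1B.Bridge54.IpInst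
open Fermat.Agent.T1B.Bridge54.IpUnion
open Fermat.Agent.ES.P36.InertField27 (InertFixed)
open Fermat.Agent.T1.CechFormal70 Fermat.Agent.T1B.Toric11 Fermat.Agent.T1B.ToricGal65
open Fermat.Agent.T1B.Union81 Fermat.Agent.T1B.GalInput65 Fermat.Agent.T1B.Toric50.Assemble
open Fermat.Agent.S33P.Geo99 Fermat.Agent.S33P.Inst3
open ModularCurve

variable {p : ℕ} [Fact p.Prime] {K : IntermediateField ℚ Qbar} [FiniteDimensional ℚ K]

attribute [local instance] algWKbar

variable {B0 B1 B01 : Type} [CommRing B0] [CommRing B1] [CommRing B01]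
  [Algebra (Wb p K) B0] [Algebra (Wb p K) B1] [Algebra (Wb p K) B01] [Algebra B0 B01]
  [Algebra B1 B01] [IsScalarTower (Wb p K) B0 B01] [IsScalarTower (Wb p K) B1 B01]
  (c0 : TwoChart (Wb p K) B0 B1 B01)
  {N M' : ℕ} [NeZero N] [NeZero M'] {π₁ π₂ : JZero N →+ JZero M'}
  {g : ℕ} {D : CechData (Wb p K) B0 B1 B01 g}
  {hρ0 : ∀ x, D.ρ0 x = algebraMap B0 B01 x} {hρ1 : ∀ x, D.ρ1 x = algebraMap B1 B01 x}
  {G : NLevel p K → Type} [∀ L, Group (G L)] {q r : ℕ} {Bt : NLevel p K → ℕ → Type}
  [∀ L n, CommGroup (Bt L n)]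
  [∀ L, MulDistribMulAction (G L) (J1 c0 ((levelFamilyN p K).O L))]
  [∀ L n, MulDistribMulAction (G L)
    (Jn D (IsLocalRing.maximalIdeal ((levelFamilyN p K).O L)) n)]
  [∀ L n, MulDistribMulAction (G L)
    (Tn r (IsLocalRing.maximalIdeal ((levelFamilyN p K).O L)) n)]
  [∀ L, MulDistribMulAction (G L) (Tinf r (IsLocalRing.maximalIdeal ((levelFamilyN p K).O L)))]

set_option linter.checkUnivs false in
/-- **`LocalGeomTate` from the J-bridge, NODE, and the toric family of T1B + CMP.** -/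
def localGeomTate_of_toric (hK : InertFixed (padicPlace p) K)
    (P00 : ∀ E : NLevel p K, Subgroup (PicO c0 E)) (hPP : Compatible c0 P00)
    (hJP : ∀ E, J1Fam c0 E ≤ P00 E)
    -- J-BRIDGE on the `p`-power torsion
    (j : ↥(torsPinf N p) →+ Atop p K c0) (j_inj : Function.Injective j)
    (j_res : letI := actTop c0 hK
      ∀ (τ : ↥(Ip p)) (x : JZero N) (hx : x ∈ torsPinf N p)
        (hx' : localGaloisToGlobal p (τ : Gp p) • x ∈ torsPinf N p), j ⟨_, hx'⟩ = τ • j ⟨x, hx⟩)
    (j_Pt : ∀ x, j x ∈ PtTop c0)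
    -- NODE
    (sub_mem_J0 : letI := actTop c0 hK
      ∀ τ : ↥(Ip p), ∀ x ∈ PtTop c0, τ • x - x ∈ J0top c0 P00 hPP)
    -- TORIC: the family of tower inputs of T1B (any exponent `q`) and its natural toric family
    (I : ∀ L, TowerInput c0 D hρ0 hρ1 ((levelFamilyN p K).O L) (G L) q r (Bt L))
    {good : ∀ (O : Type) [CommRing O] [IsDomain O] [IsDiscreteValuationRing O]
      [Algebra (Wb p K) O], Prop}
    (F : TorFam r D good) (hO : ∀ L, good ((levelFamilyN p K).O L))
    (hI : ∀ L n, (I L).ι n = F.ι ((levelFamilyN p K).O L) (hO L) n)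
    -- CMP on the `p`-power torsion
    (hinjE : ∀ E : NLevel p K, Function.Injective (bcE c0 E))
    (hext : ∀ E : NLevel p K, ∀ x ∈ J1Fam c0 E, bcOE c0 E x = 1 → x = 1)
    (hcmp : ∀ x : ↥(torsPinf N p), π₁ (x : JZero N) = 0 ∧ π₂ (x : JZero N) = 0 →
      ∀ (E : NLevel p K) (y : J1 c0 ((levelFamilyN p K).O E)),
      Additive.ofMul (bcO c0 E (y : PicX c0 ((levelFamilyN p K).O E))) = j x →
        ∀ n, (I E).β n (uJ c0 D hρ0 hρ1 ((levelFamilyN p K).O E) n y) = 1) :
    LocalGeomTate.{1, 0} p N M' π₁ π₂ :=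
  localGeomTate_of_fields c0 hK P00 hPP hJP j j_inj j_res j_Pt sub_mem_J0
    (Fin r) (ιTop I F hO hI) (ιTop_mul I F hO hI) (ιTop_smul hK I F hO hI)
    (toric_inf_J1top I F hO hI P00 hPP j hinjE hext hcmp)

end Fermat.Agent.S33P.Toric65
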