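/-
Programme S33 (ruling R1 = report 1278), brick N2-toric / N2-glue seam (helper65), EXISTENTIAL FORM.

Same as `Toric65/UnionPow.toric_inf_J1top` + `Toric65/Plug.localGeomTate_of_toric`, but the CMP
hypothesis `hcmp` is EXISTENTIAL in the level (as in `Toric50.UnionFields.toric_field`): for every
`x` of the `p`-power torsion with `π₁ x = 0`, `π₂ x = 0` and `j x ∈ J1top`, CMP PRODUCES a level `E`
and a class `y ∈ J̃¹(O_E)` of the formal kernel of `β` with image `j x`.  (The `∀ E`-form forces CMP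
to run at the level given by `mem_J1top`, which need not contain the field of definition of `x`;
the level may have to be enlarged first.)

* `toric_J1top_pow_ex`       : abstract bridge `j : T →+ Atop p K c0`, any exponent `m`;
* `toric_inf_J1top_ex`       : the binder `toric_inf` of `Inst3.localGeomTate_of_fields`, verbatim;
* `localGeomTate_of_toric_ex`: `LocalGeomTate` with the TORIC block filled in.
-/
import Mathlib
import Fermat.Agent.S33P.Toric65.Plug

set_option autoImplicit false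
set_option linter.unusedSectionVars false
set_option linter.unusedVariables false
set_option linter.style.haveILetI false
set_option linter.overlappingInstances false
set_option synthInstance.maxHeartbeats 400000
set_option maxHeartbeats 1000000

noncomputable section

namespace Fermat.Agent.S33P.Toric65

open Fermat.Agent.TW.B5.Iface Fermat.Agent.RED.Interface4 Fermat.Agent.T1.HubInst98
open Fermat.Agent.T1.IntSub47 Fermat.Agent.Jac Fermat.Agent.T1.RedIface75
open Fermat.Agent.T1B.Local66.LocalBase Fermat.Agent.T1B.Local66.Union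
open Fermat.Agent.T1B.Local66.Objects Fermat.Agent.T1B.Local66.Assembly
open Fermat.Agent.T1B.Plumb66.Inertia (Ip mem_Ip)
open Fermat.Agent.T1B.Plumb66.OneUnits
open Fermat.Agent.T1B.Bridge54.IpAction Fermat.Agent.T1B.Bridge54.IpInst
open Fermat.Agent.T1B.Bridge54.IpUnion
open Fermat.Agent.ES.P36.InertField27 (InertFixed)
open Fermat.Agent.T1.CechFormal70 Fermat.Agent.T1B.Toric11 Fermat.Agent.T1B.ToricGal65
open Fermat.Agent.T1B.Union81 Fermat.Agent.T1B.GalInput65 Fermat.Agent.T1B.Toric50.Assemble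
open Fermat.Agent.S33P.Geo99 Fermat.Agent.S33P.Inst3
open ModularCurve

variable {p : ℕ} [Fact p.Prime] {K : IntermediateField ℚ Qbar} [FiniteDimensional ℚ K]

attribute [local instance] algWKbar

variable {B0 B1 B01 : Type} [CommRing B0] [CommRing B1] [CommRing B01]
  [Algebra (Wb p K) B0] [Algebra (Wb p K) B1] [Algebra (Wb p K) B01] [Algebra B0 B01]
  [Algebra B1 B01] [IsScalarTower (Wb p K) B0 B01] [IsScalarTower (Wb p K) B1 B01]
  {c0 : TwoChart (Wb p K) B0 B1 B01}
  {N M' : ℕ} [NeZero N] [NeZero M'] {π₁ π₂ : JZero N →+ JZero M'}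
  {g : ℕ} {D : CechData (Wb p K) B0 B1 B01 g}
  {hρ0 : ∀ x, D.ρ0 x = algebraMap B0 B01 x} {hρ1 : ∀ x, D.ρ1 x = algebraMap B1 B01 x}
  {G : NLevel p K → Type} [∀ L, Group (G L)] {q r : ℕ} {Bt : NLevel p K → ℕ → Type}
  [∀ L n, CommGroup (Bt L n)]
  [∀ L, MulDistribMulAction (G L) (J1 c0 ((levelFamilyN p K).O L))]
  [∀ L n, MulDistribMulAction (G L)
    (Jn D (IsLocalRing.maximalIdeal ((levelFamilyN p K).O L)) n)]
  [∀ L n, MulDistribMulAction (G L)
    (Tn r (IsLocalRing.maximalIdeal ((levelFamilyN p K).O L)) n)]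
  [∀ L, MulDistribMulAction (G L) (Tinf r (IsLocalRing.maximalIdeal ((levelFamilyN p K).O L)))]
  (I : ∀ L, TowerInput c0 D hρ0 hρ1 ((levelFamilyN p K).O L) (G L) q r (Bt L))
  {good : ∀ (O : Type) [CommRing O] [IsDomain O] [IsDiscreteValuationRing O]
    [Algebra (Wb p K) O], Prop}
  (F : TorFam r D good) (hO : ∀ L, good ((levelFamilyN p K).O L))
  (hI : ∀ L n, (I L).ι n = F.ι ((levelFamilyN p K).O L) (hO L) n)
  (P00 : ∀ E : NLevel p K, Subgroup (PicO c0 E)) (hPP : Compatible c0 P00)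

/-- **The binder `toric` at an arbitrary exponent `m`, existential CMP**, for an abstract bridge
`j : T →+ Atop p K c0` (twin of `UnionFields.toric_field` on `J1top c0 P00 hPP`). -/
theorem toric_J1top_pow_ex {T : Type*} [AddCommGroup T] (j : T →+ Atop p K c0) (ker : T → Prop)
    (hinjE : ∀ E : NLevel p K, Function.Injective (bcE c0 E))
    (hext : ∀ E : NLevel p K, ∀ x ∈ J1Fam c0 E, bcOE c0 E x = 1 → x = 1)
    (hcmp : ∀ x : T, ker x → j x ∈ J1top c0 P00 hPP →
      ∃ (E : NLevel p K) (y : J1 c0 ((levelFamilyN p K).O E)),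
        Additive.ofMul (bcO c0 E (y : PicX c0 ((levelFamilyN p K).O E))) = j x ∧
          ∀ n, (I E).β n (uJ c0 D hρ0 hρ1 ((levelFamilyN p K).O E) n y) = 1)
    (m : ℕ) (x : T) (hmx : m • x = 0) (hx : ker x) (hxJ : j x ∈ J1top c0 P00 hPP) :
    ∃ z : Fin r → ↥(oneUnits p), (∀ e, z e ^ m = 1) ∧ ιTop I F hO hI z = j x := by
  have hma : m • j x = 0 := by rw [← map_nsmul, hmx, map_zero]
  exact exists_ιTop_eq_of_cmp_pow I F hO hI m (j x) hma hinjE hext (hcmp x hx hxJ)

/-- **The binder `toric_inf` of `S33P.Inst3.localGeomTate_of_fields`, verbatim, from the EXISTENTIAL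
form of CMP on the `p`-power torsion** (`E := Fin r`, `ιT := ιTop I F hO hI`). -/
theorem toric_inf_J1top_ex (j : ↥(torsPinf N p) →+ Atop p K c0)
    (hinjE : ∀ E : NLevel p K, Function.Injective (bcE c0 E))
    (hext : ∀ E : NLevel p K, ∀ x ∈ J1Fam c0 E, bcOE c0 E x = 1 → x = 1)
    (hcmp : ∀ x : ↥(torsPinf N p), π₁ (x : JZero N) = 0 ∧ π₂ (x : JZero N) = 0 →
      j x ∈ J1top c0 P00 hPP →
      ∃ (E : NLevel p K) (y : J1 c0 ((levelFamilyN p K).O E)),
        Additive.ofMul (bcO c0 E (y : PicX c0 ((levelFamilyN p K).O E))) = j x ∧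
          ∀ n, (I E).β n (uJ c0 D hρ0 hρ1 ((levelFamilyN p K).O E) n y) = 1) :
    ∀ (x : JZero N) (hx : x ∈ torsPinf N p) (n : ℕ), (p ^ n) • x = 0 →
      π₁ x = 0 → π₂ x = 0 → j ⟨x, hx⟩ ∈ J1top c0 P00 hPP →
      ∃ z : Fin r → ↥(oneUnits p), (∀ e, z e ^ (p ^ n) = 1) ∧
        ιTop I F hO hI z = j ⟨x, hx⟩ := by
  intro x hx n hn h1 h2 hxJ
  exact toric_J1top_pow_ex I F hO hI P00 hPP j
    (fun x : ↥(torsPinf N p) => π₁ (x : JZero N) = 0 ∧ π₂ (x : JZero N) = 0) hinjE hext hcmp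
    (p ^ n) ⟨x, hx⟩ (Subtype.ext hn) ⟨h1, h2⟩ hxJ

variable (c0)

set_option linter.checkUnivs false in
/-- **`LocalGeomTate` from the J-bridge, NODE, and the toric family of T1B + CMP (existential
form).** -/
def localGeomTate_of_toric_ex (hK : InertFixed (padicPlace p) K)
    (P00 : ∀ E : NLevel p K, Subgroup (PicO c0 E)) (hPP : Compatible c0 P00)
    (hJP : ∀ E, J1Fam c0 E ≤ P00 E)
    -- J-BRIDGE on the `p`-power torsion
    (j : ↥(torsPinf N p) →+ Atop p K c0) (j_inj : Function.Injective j)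
    (j_res : letI := actTop c0 hK
      ∀ (τ : ↥(Ip p)) (x : JZero N) (hx : x ∈ torsPinf N p)
        (hx' : localGaloisToGlobal p (τ : Gp p) • x ∈ torsPinf N p), j ⟨_, hx'⟩ = τ • j ⟨x, hx⟩)
    (j_Pt : ∀ x, j x ∈ PtTop c0)
    -- NODE
    (sub_mem_J0 : letI := actTop c0 hK
      ∀ τ : ↥(Ip p), ∀ x ∈ PtTop c0, τ • x - x ∈ J0top c0 P00 hPP)
    -- TORIC: the family of tower inputs of T1B (any exponent `q`) and its natural toric family
    (I : ∀ L, TowerInput c0 D hρ0 hρ1 ((levelFamilyN p K).O L) (G L) q r (Bt L))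
    {good : ∀ (O : Type) [CommRing O] [IsDomain O] [IsDiscreteValuationRing O]
      [Algebra (Wb p K) O], Prop}
    (F : TorFam r D good) (hO : ∀ L, good ((levelFamilyN p K).O L))
    (hI : ∀ L n, (I L).ι n = F.ι ((levelFamilyN p K).O L) (hO L) n)
    -- CMP on the `p`-power torsion, existential in the level
    (hinjE : ∀ E : NLevel p K, Function.Injective (bcE c0 E))
    (hext : ∀ E : NLevel p K, ∀ x ∈ J1Fam c0 E, bcOE c0 E x = 1 → x = 1)
    (hcmp : ∀ x : ↥(torsPinf N p), π₁ (x : JZero N) = 0 ∧ π₂ (x : JZero N) = 0 →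
      j x ∈ J1top c0 P00 hPP →
      ∃ (E : NLevel p K) (y : J1 c0 ((levelFamilyN p K).O E)),
        Additive.ofMul (bcO c0 E (y : PicX c0 ((levelFamilyN p K).O E))) = j x ∧
          ∀ n, (I E).β n (uJ c0 D hρ0 hρ1 ((levelFamilyN p K).O E) n y) = 1) :
    LocalGeomTate.{1, 0} p N M' π₁ π₂ :=
  localGeomTate_of_fields c0 hK P00 hPP hJP j j_inj j_res j_Pt sub_mem_J0
    (Fin r) (ιTop I F hO hI) (ιTop_mul I F hO hI) (ιTop_smul hK I F hO hI)
    (toric_inf_J1top_ex I F hO hI P00 hPP j hinjE hext hcmp)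

end Fermat.Agent.S33P.Toric65
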